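/-
T1B / cell AD (ALG-DESCENT), brick AD SETTING INSTANTIATION (helper69), abstract half.

THE `Frames.Setting` OF `AD21/Tensor.setting_tensor` FROM EXPANSIONS.

Data: `W` a domain with `K = Frac W`; `B` a flat `W`-algebra with an injective expansion
`e : B →+* K((q))` (`w ↦ C w` on `W`); fields `K ⊂ L ⊂ Ω`; `W`-algebras `O ↪ L`, `Ô ↪ Ω` and a
`W`-algebra map `ψ : O → Ô` compatible with `L → Ω`; fields `F`, `F̂` which are algebras over
`R := O ⊗[W] B`, `R̂ := Ô ⊗[W] B` and carry expansions `eF : F →+* L((q))`, `eFh : F̂ →+* Ω((q))`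
which on the chart rings are the base-changed expansions `intExp` (`InjLaurent69/Basic`), and
`ι : F →+* F̂` with `eFh ∘ ι = coeffMap (L → Ω) ∘ eF`.

Then ALL hypotheses of `AD21.Tensor.setting_tensor` except the two DVR-level ones
(`happrox`, `hsat`: helper78's AD78/Density) hold: `compat`, `pi_ne`, `hinj`; packaged as
`setting_of_expansions`.  No particular choice of `F`, `F̂` or of the `Algebra` instances is made:
they are pinned down by their expansions only (`heF`, `heFh`; pure-tensor forms `heF_of_tmul`).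

Also: `hT_tensor` (the `T = R̂[1/π]` input of `AD21/Adapter` for `T := E ⊗[W] B`), and
`flat_of_injective` (`Module.Flat W B` for a Bezout domain `W`, e.g. a valuation ring, and `B`
embedded in a `K`-algebra domain).
-/
import Mathlib
import Fermat.Prelude.Def_ModularCurve_LaurentCoeff
import Fermat.Agent.T1B.InjLaurent69.Basic
import Fermat.Agent.T1B.AD21.Tensor

set_option autoImplicit false
set_option linter.unusedSectionVars false
set_option linter.style.haveILetI false

noncomputable section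

namespace Fermat.Agent.T1B.AD69

open HahnSeries ModularCurve TensorProduct
open Fermat.Agent.T1B.InjLaurent69 Fermat.Agent.T1B.AD21

section Abstract

variable {W K L Ω O Oh B : Type*} [CommRing W] [Field K] [Field L] [Field Ω]
  [CommRing O] [CommRing Oh] [CommRing B]
  [Algebra W K] [IsFractionRing W K] [Algebra K L] [Algebra K Ω] [Algebra L Ω] [IsScalarTower K L Ω]
  [Algebra W L] [IsScalarTower W K L] [Algebra W Ω] [IsScalarTower W K Ω]
  [Algebra W O] [Algebra O L] [IsScalarTower W O L]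
  [Algebra W Oh] [Algebra Oh Ω] [IsScalarTower W Oh Ω]
  [Algebra W B]
  (e : B →+* LaurentSeries K)
  (he : ∀ w : W, e (algebraMap W B w) = HahnSeries.C (algebraMap W K w))
  (ψ : O →ₐ[W] Oh)
  (hψ : ∀ o : O, algebraMap Oh Ω (ψ o) = algebraMap L Ω (algebraMap O L o))

/-- a ring hom on `O ⊗[W] B` with the values of `intExp` on pure tensors is `intExp`. -/
theorem eq_intExp_of_tmul (g : O ⊗[W] B →+* LaurentSeries L)
    (hg : ∀ (o : O) (b : B), g (o ⊗ₜ[W] b) =
      HahnSeries.C (algebraMap O L o) * coeffMap (algebraMap K L) (e b)) (r : O ⊗[W] B) :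
    g r = intExp (L := L) e he r := by
  induction r using TensorProduct.induction_on with
  | zero => rw [map_zero, map_zero]
  | tmul o b => rw [hg, intExp_tmul]
  | add x y hx hy => rw [map_add, map_add, hx, hy]

include hψ in
/-- **Base change of the integral expansion along `ψ ⊗ id`**:
`intExp_Ω (ψ ⊗ id) = coeffMap (L → Ω) ∘ intExp_L`. -/
theorem intExp_tmap (r : O ⊗[W] B) :
    intExp (L := Ω) (O := Oh) e he (Tensor.tmap B ψ r) =
      coeffMap (algebraMap L Ω) (intExp (L := L) (O := O) e he r) := by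
  induction r using TensorProduct.induction_on with
  | zero => rw [map_zero, map_zero, map_zero, map_zero]
  | tmul o b =>
    rw [Tensor.tmap_tmul, intExp_tmul, intExp_tmul, map_mul, coeffMap_coeffMap, hψ,
      ← IsScalarTower.algebraMap_eq K L Ω]
    congr 1
    exact (coeffMap_single (algebraMap L Ω) 0 _).symm
  | add x y hx hy => rw [map_add, map_add, map_add, map_add, hx, hy]

variable {F Fh : Type*} [Field F] [Field Fh] [Algebra (O ⊗[W] B) F] [Algebra (Oh ⊗[W] B) Fh]
  (eF : F →+* LaurentSeries L) (eFh : Fh →+* LaurentSeries Ω)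
  (heF : ∀ r : O ⊗[W] B, eF (algebraMap (O ⊗[W] B) F r) = intExp (L := L) e he r)
  (heFh : ∀ r : Oh ⊗[W] B, eFh (algebraMap (Oh ⊗[W] B) Fh r) = intExp (L := Ω) e he r)
  (ι : F →+* Fh) (hι : ∀ f : F, eFh (ι f) = coeffMap (algebraMap L Ω) (eF f))

/-- pure-tensor form of `heF` / `heFh`. -/
theorem heF_of_tmul
    (h : ∀ (o : O) (b : B), eF (algebraMap (O ⊗[W] B) F (o ⊗ₜ[W] b)) =
      HahnSeries.C (algebraMap O L o) * coeffMap (algebraMap K L) (e b)) (r : O ⊗[W] B) :
    eF (algebraMap (O ⊗[W] B) F r) = intExp (L := L) e he r :=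
  eq_intExp_of_tmul e he (eF.comp (algebraMap (O ⊗[W] B) F)) h r

include hψ heF heFh hι in
/-- `compat` of `Frames.Setting`. -/
theorem compat_of_expansions (r : O ⊗[W] B) :
    algebraMap (Oh ⊗[W] B) Fh (Tensor.tmap B ψ r) = ι (algebraMap (O ⊗[W] B) F r) := by
  apply eFh.injective
  rw [heFh, hι, heF, intExp_tmap e he ψ hψ]

include heF in
/-- `pi_ne` of `Frames.Setting`. -/
theorem pi_ne_of_expansions (hO : Function.Injective (algebraMap O L)) {π : O} (hπ : π ≠ 0) :
    algebraMap (O ⊗[W] B) F (π ⊗ₜ[W] (1 : B)) ≠ 0 := by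
  intro h0
  have h1 := heF (π ⊗ₜ[W] (1 : B))
  rw [h0, map_zero, intExp_tmul, map_one, map_one, mul_one] at h1
  have h2 : algebraMap O L π = 0 := by
    have h3 : (HahnSeries.C (algebraMap O L π) : LaurentSeries L) = HahnSeries.C 0 := by
      rw [← h1, map_zero]
    exact HahnSeries.C_injective h3
  exact hπ (hO (by rw [h2, map_zero]))

include heFh in
/-- `hinj` of `setting_tensor`: the completed chart ring embeds into `F̂`. -/
theorem hinj_of_expansions [Module.Flat W B] (hOh : Function.Injective (algebraMap Oh Ω))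
    (hinj : Function.Injective e) :
    Function.Injective (algebraMap (Oh ⊗[W] B) Fh) := by
  intro x y hxy
  have h := congrArg eFh hxy
  rw [heFh, heFh] at h
  exact intExp_injective (L := Ω) (O := Oh) e he hOh hinj h

include heF in
/-- the algebraic chart ring embeds into `F` as well. -/
theorem hinj_alg_of_expansions [Module.Flat W B] (hO : Function.Injective (algebraMap O L))
    (hinj : Function.Injective e) :
    Function.Injective (algebraMap (O ⊗[W] B) F) := by
  intro x y hxy
  have h := congrArg eF hxy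
  rw [heF, heF] at h
  exact intExp_injective (L := L) (O := O) e he hO hinj h

include hψ heF heFh hι in
/-- **The `Frames.Setting` of the concrete chart rings** `O ⊗[W] B → Ô ⊗[W] B` inside `F → F̂`,
from expansions + the two DVR-level facts `happrox`, `hsat` on `ψ : O → Ô`. -/
theorem setting_of_expansions [Module.Flat W B] (hO : Function.Injective (algebraMap O L))
    (hOh : Function.Injective (algebraMap Oh Ω)) (hinj : Function.Injective e)
    {π : O} (hπ : π ≠ 0)
    (happrox : ∀ (n : ℕ) (x : Oh), ∃ (r : O) (s : Oh), x = ψ r + ψ π ^ n * s)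
    (hsat : ∀ (n : ℕ) (r : O), ψ r ∈ Ideal.span {ψ π ^ n} → r ∈ Ideal.span {π ^ n}) :
    Frames.Setting (Tensor.tmap B ψ : O ⊗[W] B →+* Oh ⊗[W] B) ι (π ⊗ₜ[W] (1 : B)) :=
  Tensor.setting_tensor ψ π ι
    (compat_of_expansions e he ψ hψ eF eFh heF heFh ι hι)
    (pi_ne_of_expansions e he eF heF hO hπ)
    (hinj_of_expansions e he eFh heFh hOh hinj)
    happrox hsat

end Abstract

/-! ### The canonical choice `F̂ := Ω((q))` -/

section Laurent

variable {W K L Ω O Oh B : Type*} [CommRing W] [Field K] [Field L] [Field Ω]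
  [CommRing O] [CommRing Oh] [CommRing B]
  [Algebra W K] [IsFractionRing W K] [Algebra K L] [Algebra K Ω] [Algebra L Ω] [IsScalarTower K L Ω]
  [Algebra W L] [IsScalarTower W K L] [Algebra W Ω] [IsScalarTower W K Ω]
  [Algebra W O] [Algebra O L] [IsScalarTower W O L]
  [Algebra W Oh] [Algebra Oh Ω] [IsScalarTower W Oh Ω]
  [Algebra W B]
  (e : B →+* LaurentSeries K)
  (he : ∀ w : W, e (algebraMap W B w) = HahnSeries.C (algebraMap W K w))
  (ψ : O →ₐ[W] Oh)
  (hψ : ∀ o : O, algebraMap Oh Ω (ψ o) = algebraMap L Ω (algebraMap O L o))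

/-- `Ω((q))` as an algebra over the completed chart ring `Ô ⊗[W] B`, via `intExp`
(a definition, not an instance: use `letI`). -/
@[reducible] def algLaurent : Algebra (Oh ⊗[W] B) (LaurentSeries Ω) :=
  (intExp (L := Ω) (O := Oh) e he).toAlgebra

variable {F : Type*} [Field F] [Algebra (O ⊗[W] B) F]
  (eF : F →+* LaurentSeries L)
  (heF : ∀ r : O ⊗[W] B, eF (algebraMap (O ⊗[W] B) F r) = intExp (L := L) e he r)

include hψ heF in
/-- **The `Frames.Setting` with `F̂ := Ω((q))`**, `ι := coeffMap (L → Ω) ∘ eF`. -/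
theorem setting_laurent [Module.Flat W B] (hO : Function.Injective (algebraMap O L))
    (hOh : Function.Injective (algebraMap Oh Ω)) (hinj : Function.Injective e)
    {π : O} (hπ : π ≠ 0)
    (happrox : ∀ (n : ℕ) (x : Oh), ∃ (r : O) (s : Oh), x = ψ r + ψ π ^ n * s)
    (hsat : ∀ (n : ℕ) (r : O), ψ r ∈ Ideal.span {ψ π ^ n} → r ∈ Ideal.span {π ^ n}) :
    letI := algLaurent (Ω := Ω) (Oh := Oh) e he
    Frames.Setting (Tensor.tmap B ψ : O ⊗[W] B →+* Oh ⊗[W] B)
      ((coeffMap (algebraMap L Ω)).comp eF) (π ⊗ₜ[W] (1 : B)) := by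
  letI := algLaurent (Ω := Ω) (Oh := Oh) e he
  exact setting_of_expansions e he ψ hψ eF (RingHom.id _) heF (fun _ => rfl)
    ((coeffMap (algebraMap L Ω)).comp eF) (fun _ => rfl) hO hOh hinj hπ happrox hsat

end Laurent

/-! ### `T = R̂[1/π]` for `T := E ⊗[W] B` -/

section Localisation

variable {W Oh E B : Type*} [CommRing W] [CommRing Oh] [CommRing E] [CommRing B]
  [Algebra W Oh] [Algebra W E] [Algebra W B] [Algebra Oh E] [IsScalarTower W Oh E]
  [Algebra (Oh ⊗[W] B) (E ⊗[W] B)]

/-- **`E ⊗[W] B = (Ô ⊗[W] B)[1/ϖ]`** (elementwise; the input `hT` of `AD21/Adapter`) from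
`E = Ô[1/ϖ]`. -/
theorem hT_tensor
    (halg : ∀ (o : Oh) (b : B), algebraMap (Oh ⊗[W] B) (E ⊗[W] B) (o ⊗ₜ[W] b) =
      algebraMap Oh E o ⊗ₜ[W] b)
    (ϖ : Oh) (hE : ∀ x : E, ∃ (n : ℕ) (r : Oh), algebraMap Oh E ϖ ^ n * x = algebraMap Oh E r)
    (t : E ⊗[W] B) :
    ∃ (n : ℕ) (r : Oh ⊗[W] B),
      algebraMap (Oh ⊗[W] B) (E ⊗[W] B) (ϖ ⊗ₜ[W] (1 : B)) ^ n * t =
        algebraMap (Oh ⊗[W] B) (E ⊗[W] B) r := by
  have hϖ : ∀ n : ℕ, algebraMap (Oh ⊗[W] B) (E ⊗[W] B) (ϖ ⊗ₜ[W] (1 : B)) ^ n =
      (algebraMap Oh E ϖ ^ n) ⊗ₜ[W] (1 : B) := by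
    intro n
    rw [halg, Algebra.TensorProduct.tmul_pow, one_pow]
  induction t using TensorProduct.induction_on with
  | zero => exact ⟨0, 0, by rw [mul_zero, map_zero]⟩
  | tmul x b =>
    obtain ⟨n, r, hr⟩ := hE x
    refine ⟨n, r ⊗ₜ[W] b, ?_⟩
    rw [hϖ, Algebra.TensorProduct.tmul_mul_tmul, one_mul, hr, halg]
  | add x y hx hy =>
    obtain ⟨n, r, hr⟩ := hx
    obtain ⟨m, s, hs⟩ := hy
    refine ⟨n + m, algebraMap (Oh ⊗[W] B) (Oh ⊗[W] B) (ϖ ⊗ₜ[W] (1 : B)) ^ m * r +
      (ϖ ⊗ₜ[W] (1 : B)) ^ n * s, ?_⟩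
    rw [map_add, map_mul, map_mul, map_pow, map_pow, ← hr, ← hs, Algebra.algebraMap_self_apply]
    ring

end Localisation

/-! ### flatness of the chart rings -/

section Flat

variable {W K B D : Type*} [CommRing W] [IsDomain W] [IsBezout W] [Field K] [Algebra W K]
  [CommRing B] [Algebra W B] [CommRing D] [IsDomain D] [Algebra K D]

/-- A `W`-algebra `B` which embeds (over `W → K`, injective) into a `K`-algebra domain is flat over
the Bezout domain `W` (e.g. a valuation ring). -/
theorem flat_of_injective (hWK : Function.Injective (algebraMap W K)) (ι : B →+* D)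
    (hι : ∀ w : W, ι (algebraMap W B w) = algebraMap K D (algebraMap W K w))
    (hinj : Function.Injective ι) : Module.Flat W B := by
  rw [Module.Flat.flat_iff_torsion_eq_bot_of_isBezout, eq_bot_iff]
  rintro b ⟨⟨w, hw⟩, hwb⟩
  rw [Submodule.mem_bot]
  have h1 : ι (algebraMap W B w * b) = 0 := by
    have : algebraMap W B w * b = w • b := (Algebra.smul_def w b).symm
    rw [this]
    simpa using congrArg ι hwb
  rw [map_mul, hι] at h1
  have hw0 : algebraMap K D (algebraMap W K w) ≠ 0 := by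
    have hw' : w ≠ 0 := nonZeroDivisors.ne_zero hw
    have : algebraMap W K w ≠ 0 := fun h => hw' (hWK (by rw [h, map_zero]))
    exact fun h => this ((algebraMap K D).injective (by rw [h, map_zero]))
  exact hinj (by rw [(mul_eq_zero.mp h1).resolve_left hw0, map_zero])

end Flat

end Fermat.Agent.T1B.AD69
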