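/-
T1B / cell AD (helper69): THE `p`-ADIC SIDE INSTANCE PACKAGE FOR `F̂ := Ω((q))`.

With `algLaurent e he : Algebra (O ⊗[W] B) (LaurentSeries Ω)` (`AD69/Setting`, = `intExp`) for every
`W`-algebra `O` mapping to `Ω` and every chart ring `B` with an expansion `e`, ALL the scalar towers
needed by `AD74.Main.exists_framing_of_map_eq` and `AD21/Adapter` are instances of two lemmas:

* `tower_left`  : `O₁ ⊗[W] B → O₂ ⊗[W] B → Ω((q))`   (change of coefficient ring `O₁ → O₂ → Ω`);
* `tower_right` : `O ⊗[W] B → O ⊗[W] B' → Ω((q))`    (change of chart `B → B'`, `e' ∘ (B → B') = e`).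

The `Algebra` structures between the tensor rings are arbitrary (variables), pinned down by their
values on pure tensors (`halg`: for `BaseChange75.algLeft/algRight` these are
`algebraMap_left_tmul` / `algebraMap_right_tmul`).
-/
import Mathlib
import Fermat.Prelude.Def_ModularCurve_LaurentCoeff
import Fermat.Agent.T1B.AD69.Setting

set_option autoImplicit false
set_option linter.unusedSectionVars false
set_option linter.style.haveILetI false

noncomputable section

namespace Fermat.Agent.T1B.AD69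

open HahnSeries ModularCurve TensorProduct
open Fermat.Agent.T1B.InjLaurent69

variable {W K Ω B : Type*} [CommRing W] [Field K] [Field Ω] [CommRing B]
  [Algebra W K] [IsFractionRing W K] [Algebra K Ω] [Algebra W Ω] [IsScalarTower W K Ω]
  [Algebra W B]
  (e : B →+* LaurentSeries K)
  (he : ∀ w : W, e (algebraMap W B w) = HahnSeries.C (algebraMap W K w))

/-- the structure map of `algLaurent` is `intExp`. -/
theorem algebraMap_algLaurent {O : Type*} [CommRing O] [Algebra W O] [Algebra O Ω]
    [IsScalarTower W O Ω] (x : O ⊗[W] B) :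
    letI := algLaurent (Ω := Ω) (Oh := O) e he
    algebraMap (O ⊗[W] B) (LaurentSeries Ω) x = intExp (L := Ω) (O := O) e he x := rfl

/-- the structure map of `algLaurent` on pure tensors. -/
theorem algebraMap_algLaurent_tmul {O : Type*} [CommRing O] [Algebra W O] [Algebra O Ω]
    [IsScalarTower W O Ω] (o : O) (b : B) :
    letI := algLaurent (Ω := Ω) (Oh := O) e he
    algebraMap (O ⊗[W] B) (LaurentSeries Ω) (o ⊗ₜ[W] b) =
      HahnSeries.C (algebraMap O Ω o) * coeffMap (algebraMap K Ω) (e b) :=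
  intExp_tmul (L := Ω) e he o b

/-- **Change of coefficient ring**: `O₁ ⊗[W] B → O₂ ⊗[W] B → Ω((q))` is a scalar tower. -/
theorem tower_left {O₁ O₂ : Type*} [CommRing O₁] [CommRing O₂] [Algebra W O₁] [Algebra W O₂]
    [Algebra O₁ Ω] [Algebra O₂ Ω] [IsScalarTower W O₁ Ω] [IsScalarTower W O₂ Ω]
    [Algebra O₁ O₂] [IsScalarTower O₁ O₂ Ω]
    [Algebra (O₁ ⊗[W] B) (O₂ ⊗[W] B)]
    (halg : ∀ (o : O₁) (b : B), algebraMap (O₁ ⊗[W] B) (O₂ ⊗[W] B) (o ⊗ₜ[W] b) =
      algebraMap O₁ O₂ o ⊗ₜ[W] b) :
    letI := algLaurent (Ω := Ω) (Oh := O₁) e he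
    letI := algLaurent (Ω := Ω) (Oh := O₂) e he
    IsScalarTower (O₁ ⊗[W] B) (O₂ ⊗[W] B) (LaurentSeries Ω) := by
  letI := algLaurent (Ω := Ω) (Oh := O₁) e he
  letI := algLaurent (Ω := Ω) (Oh := O₂) e he
  refine IsScalarTower.of_algebraMap_eq fun x => ?_
  show intExp (L := Ω) (O := O₁) e he x =
    intExp (L := Ω) (O := O₂) e he (algebraMap (O₁ ⊗[W] B) (O₂ ⊗[W] B) x)
  induction x using TensorProduct.induction_on with
  | zero => rw [map_zero, map_zero, map_zero]
  | tmul o b =>
    rw [halg, intExp_tmul, intExp_tmul, ← IsScalarTower.algebraMap_apply O₁ O₂ Ω]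
  | add x y hx hy => rw [map_add, map_add, map_add, hx, hy]

/-- **Change of chart**: `O ⊗[W] B → O ⊗[W] B' → Ω((q))` is a scalar tower. -/
theorem tower_right {O B' : Type*} [CommRing O] [Algebra W O] [Algebra O Ω] [IsScalarTower W O Ω]
    [CommRing B'] [Algebra W B'] [Algebra B B']
    (e' : B' →+* LaurentSeries K)
    (he' : ∀ w : W, e' (algebraMap W B' w) = HahnSeries.C (algebraMap W K w))
    (hee' : ∀ b : B, e' (algebraMap B B' b) = e b)
    [Algebra (O ⊗[W] B) (O ⊗[W] B')]
    (halg : ∀ (o : O) (b : B), algebraMap (O ⊗[W] B) (O ⊗[W] B') (o ⊗ₜ[W] b) =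
      o ⊗ₜ[W] algebraMap B B' b) :
    letI := algLaurent (Ω := Ω) (Oh := O) e he
    letI := algLaurent (Ω := Ω) (Oh := O) e' he'
    IsScalarTower (O ⊗[W] B) (O ⊗[W] B') (LaurentSeries Ω) := by
  letI := algLaurent (Ω := Ω) (Oh := O) e he
  letI := algLaurent (Ω := Ω) (Oh := O) e' he'
  refine IsScalarTower.of_algebraMap_eq fun x => ?_
  show intExp (L := Ω) (O := O) e he x =
    intExp (L := Ω) (O := O) e' he' (algebraMap (O ⊗[W] B) (O ⊗[W] B') x)
  induction x using TensorProduct.induction_on with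
  | zero => rw [map_zero, map_zero, map_zero]
  | tmul o b => rw [halg, intExp_tmul, intExp_tmul, hee']
  | add x y hx hy => rw [map_add, map_add, map_add, hx, hy]

/-- injectivity of the structure map of `algLaurent` (the `hinj` of `AD74.Main`). -/
theorem algebraMap_algLaurent_injective {O : Type*} [CommRing O] [Algebra W O] [Algebra O Ω]
    [IsScalarTower W O Ω] [Module.Flat W B] (hO : Function.Injective (algebraMap O Ω))
    (hinj : Function.Injective e) :
    letI := algLaurent (Ω := Ω) (Oh := O) e he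
    Function.Injective (algebraMap (O ⊗[W] B) (LaurentSeries Ω)) :=
  intExp_injective (L := Ω) (O := O) e he hO hinj

end Fermat.Agent.T1B.AD69
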