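/-
T1B / cell AD (ALG-DESCENT), brick AD SETTING INSTANTIATION (helper69), concrete half.

The coefficient rings of cell AD:  `K ≤ L` number fields in `ℚ̄`, `A = padicPlace p`,

  `W  = Wb p K = A ∩ K`,   `O = Wb p L = A ∩ L`,   `E = E_L = ℚ_p(ι L) = localField p L`,
  `Ô = O_E = intSubring p E`,   `ψ = toO : O → Ô` (a `W`-algebra map),   `Ω := E`.

For ANY flat `W`-algebra `B` with an injective expansion `e : B →+* K((q))` (the chart rings
`B_j ⊂ FK N K`, `e = val`) and `0 ≠ π ∈ O`: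

* `setting_concrete` : the `Frames.Setting` of `O ⊗[W] B → Ô ⊗[W] B` inside `L((q)) → E((q))`
  (canonical structures `algLaurent`), from the two density facts `happrox`, `hsat` on `ψ`
  (helper78, AD78/Density);
* `setting_concrete_of` : the same for an arbitrary algebraic-side field `F` with an expansion
  `eF : F →+* L((q))` (e.g. `F = FK N L`, `eF = val`);
* `hT_concrete` : `E ⊗[W] B = (Ô ⊗[W] B)[1/ψ π]` for `‖ι π‖ < 1` (the `hT` of `AD21/Adapter`).

All `Algebra` structures are `letI`-definitions of `Local66/LocalBase` (`algWO`, `algWE`, `algOE`) and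
`T1/HubInst98/Incl` (`algAK`, `algAKL`, `algKL`), plus `algKE`, `algLE` below.
-/
import Mathlib
import Fermat.Agent.T1B.AD69.Setting
import Fermat.Agent.T1B.AD69.LaurentInst
import Fermat.Agent.T1B.Local66.LocalBase
import Fermat.Agent.PT.BR.LocInj13

set_option autoImplicit false
set_option linter.unusedSectionVars false
set_option linter.style.haveILetI false

noncomputable section

namespace Fermat.Agent.T1B.AD69.Concrete

open HahnSeries ModularCurve TensorProduct
open Fermat.Agent.TW.B5.Iface Fermat.Agent.RED.Interface4 Fermat.Agent.T1.HubInst98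
open Fermat.Agent.T1B.Local66.LocalBase
open Fermat.Agent.T1B.InjLaurent69 Fermat.Agent.T1B.AD21

variable (p : ℕ) [Fact p.Prime]

/-- `E_L = ℚ_p(ι L)`. -/
abbrev EL (L : IntermediateField ℚ Qbar) : IntermediateField ℚ_[p] (Kbar p) :=
  Fermat.Agent.PT.BR.LocInj13.localField p L

theorem isLevel_EL (L : IntermediateField ℚ Qbar) : IsLevel p L (EL p L) := fun x => by
  show padicEmbedding p (x : Qbar) ∈ Fermat.Agent.PT.BR.LocInj13.localField p L
  exact Fermat.Agent.PT.BR.LocInj13.padicEmbedding_mem_localField p x.2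

variable {p}
variable {K L : IntermediateField ℚ Qbar}

theorem isLevel_of_le (hKL : K ≤ L) {E : IntermediateField ℚ_[p] (Kbar p)} (h : IsLevel p L E) :
    IsLevel p K E := fun x => h (IntermediateField.inclusion hKL x)

variable {E : IntermediateField ℚ_[p] (Kbar p)}

/-- `E` as a `K`-algebra (`letI`). -/
abbrev algKE (h : IsLevel p K E) : Algebra ↥K ↥E := (toE h).toAlgebra

/-- `ψ : A ∩ L → O_E` is `W`-linear. -/
theorem toO_inclAK (hKL : K ≤ L) (h : IsLevel p L E) (w : Wb p K) :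
    toO h (inclAK (padicPlace p) hKL w) = toO (isLevel_of_le hKL h) w :=
  Subtype.ext rfl

/-- `ψ` as a `W`-algebra map. -/
def psiAlg (hKL : K ≤ L) (h : IsLevel p L E) :
    letI := algAK (padicPlace p) hKL
    letI := algWO (isLevel_of_le hKL h)
    Wb p L →ₐ[Wb p K] ↥(intSubring p E) :=
  letI := algAK (padicPlace p) hKL
  letI := algWO (isLevel_of_le hKL h)
  { toO h with commutes' := fun w => toO_inclAK hKL h w }

theorem psiAlg_apply (hKL : K ≤ L) (h : IsLevel p L E) (x : Wb p L) :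
    psiAlg hKL h x = toO h x := rfl

section Main

variable (hKL : K ≤ L) (h : IsLevel p L E)
  {B : Type*} [CommRing B] [Algebra (Wb p K) B]
  (e : B →+* LaurentSeries ↥K)
  (he : ∀ w : Wb p K, e (algebraMap (Wb p K) B w) = HahnSeries.C (algebraMap (Wb p K) ↥K w))

/-- **The `Frames.Setting` of the concrete chart rings**, algebraic side `F` an arbitrary field with
structure map `κF : O ⊗[W] B →+* F` and an expansion `eF`; `p`-adic side `E((q))`. -/
theorem setting_concrete_of [Module.Flat (Wb p K) B] (hinj : Function.Injective e)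
    {F : Type*} [Field F]
    (κF : letI := algAK (padicPlace p) hKL
      Wb p L ⊗[Wb p K] B →+* F)
    (eF : F →+* LaurentSeries ↥L)
    (heF : letI := algAK (padicPlace p) hKL
      letI := algKL hKL
      letI := algAKL (padicPlace p) hKL
      haveI := isScalarTower_AK (padicPlace p) hKL
      haveI := isScalarTower_AK_K (padicPlace p) hKL
      ∀ r : Wb p L ⊗[Wb p K] B, eF (κF r) = intExp (L := ↥L) (O := Wb p L) e he r)
    {π : Wb p L} (hπ : π ≠ 0)
    (happrox : ∀ (n : ℕ) (x : ↥(intSubring p E)), ∃ (r : Wb p L) (s : ↥(intSubring p E)),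
      x = toO h r + toO h π ^ n * s)
    (hsat : ∀ (n : ℕ) (r : Wb p L), toO h r ∈ Ideal.span {toO h π ^ n} → r ∈ Ideal.span {π ^ n}) :
    letI := algAK (padicPlace p) hKL
    letI := algWO (isLevel_of_le hKL h)
    letI := algWE (isLevel_of_le hKL h)
    letI := algOE E
    letI := algKE (isLevel_of_le hKL h)
    letI := algKE h
    haveI := tower_W_O_E (isLevel_of_le hKL h)
    haveI : IsScalarTower (Wb p K) ↥K ↥E := IsScalarTower.of_algebraMap_eq' rfl
    letI : Algebra (Wb p L ⊗[Wb p K] B) F := κF.toAlgebra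
    letI := algLaurent (Ω := ↥E) (Oh := ↥(intSubring p E)) e he
    Frames.Setting
      (Tensor.tmap B (psiAlg hKL h) : Wb p L ⊗[Wb p K] B →+* ↥(intSubring p E) ⊗[Wb p K] B)
      ((coeffMap (algebraMap ↥L ↥E)).comp eF) (π ⊗ₜ[Wb p K] (1 : B)) := by
  letI := algAK (padicPlace p) hKL
  letI := algKL hKL
  letI := algAKL (padicPlace p) hKL
  haveI := isScalarTower_AK (padicPlace p) hKL
  haveI := isScalarTower_AK_K (padicPlace p) hKL
  letI := algWO (isLevel_of_le hKL h)
  letI := algWE (isLevel_of_le hKL h)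
  letI := algOE E
  letI := algKE (isLevel_of_le hKL h)
  letI := algKE h
  haveI := tower_W_O_E (isLevel_of_le hKL h)
  haveI : IsScalarTower (Wb p K) ↥K ↥E := IsScalarTower.of_algebraMap_eq' rfl
  haveI : IsScalarTower ↥K ↥L ↥E := IsScalarTower.of_algebraMap_eq' rfl
  letI : Algebra (Wb p L ⊗[Wb p K] B) F := κF.toAlgebra
  exact setting_laurent (W := Wb p K) (K := ↥K) (L := ↥L) (Ω := ↥E) (O := Wb p L)
    (Oh := ↥(intSubring p E)) e he (psiAlg hKL h) (fun _ => Subtype.ext rfl) eF heF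
    (IsFractionRing.injective (Wb p L) ↥L) oToE_injective hinj hπ happrox hsat

/-- **The `Frames.Setting` with the canonical choices** `F := L((q))`, `F̂ := E((q))`
(`algLaurent` structures on both sides), `ι := coeffMap (L → E)`. -/
theorem setting_concrete [Module.Flat (Wb p K) B] (hinj : Function.Injective e)
    {π : Wb p L} (hπ : π ≠ 0)
    (happrox : ∀ (n : ℕ) (x : ↥(intSubring p E)), ∃ (r : Wb p L) (s : ↥(intSubring p E)),
      x = toO h r + toO h π ^ n * s)
    (hsat : ∀ (n : ℕ) (r : Wb p L), toO h r ∈ Ideal.span {toO h π ^ n} → r ∈ Ideal.span {π ^ n}) :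
    letI := algAK (padicPlace p) hKL
    letI := algKL hKL
    letI := algAKL (padicPlace p) hKL
    haveI := isScalarTower_AK (padicPlace p) hKL
    haveI := isScalarTower_AK_K (padicPlace p) hKL
    letI := algWO (isLevel_of_le hKL h)
    letI := algWE (isLevel_of_le hKL h)
    letI := algOE E
    letI := algKE (isLevel_of_le hKL h)
    letI := algKE h
    haveI := tower_W_O_E (isLevel_of_le hKL h)
    haveI : IsScalarTower (Wb p K) ↥K ↥E := IsScalarTower.of_algebraMap_eq' rfl
    letI := algLaurent (Ω := ↥L) (Oh := Wb p L) e he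
    letI := algLaurent (Ω := ↥E) (Oh := ↥(intSubring p E)) e he
    Frames.Setting
      (Tensor.tmap B (psiAlg hKL h) : Wb p L ⊗[Wb p K] B →+* ↥(intSubring p E) ⊗[Wb p K] B)
      (coeffMap (algebraMap ↥L ↥E)) (π ⊗ₜ[Wb p K] (1 : B)) := by
  letI := algAK (padicPlace p) hKL
  letI := algKL hKL
  letI := algAKL (padicPlace p) hKL
  haveI := isScalarTower_AK (padicPlace p) hKL
  haveI := isScalarTower_AK_K (padicPlace p) hKL
  exact setting_concrete_of hKL h e he hinj (intExp (L := ↥L) (O := Wb p L) e he)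
    (RingHom.id _) (fun _ => rfl) hπ happrox hsat

end Main

/-! ### `E = O_E[1/ϖ]` -/

section Loc

/-- Every element of `E` becomes integral after multiplication by a power of `ϖ`, `‖ϖ‖ < 1`. -/
theorem exists_pow_mul_eq (E : IntermediateField ℚ_[p] (Kbar p)) (ϖ : ↥(intSubring p E))
    (hϖ : ‖(ϖ : Kbar p)‖ < 1) (x : ↥E) :
    letI := algOE E
    ∃ (n : ℕ) (r : ↥(intSubring p E)),
      algebraMap ↥(intSubring p E) ↥E ϖ ^ n * x = algebraMap ↥(intSubring p E) ↥E r := by
  letI := algOE E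
  obtain ⟨n, hn⟩ : ∃ n : ℕ, ‖(ϖ : Kbar p)‖ ^ n * ‖(x : Kbar p)‖ ≤ 1 := by
    by_cases hx : ‖(x : Kbar p)‖ = 0
    · exact ⟨0, by rw [hx, mul_zero]; exact zero_le_one⟩
    · have hpos : 0 < ‖(x : Kbar p)‖ := lt_of_le_of_ne (norm_nonneg _) (Ne.symm hx)
      obtain ⟨n, hn⟩ := exists_pow_lt_of_lt_one (inv_pos.2 hpos) hϖ
      refine ⟨n, le_of_lt ?_⟩
      calc ‖(ϖ : Kbar p)‖ ^ n * ‖(x : Kbar p)‖ < ‖(x : Kbar p)‖⁻¹ * ‖(x : Kbar p)‖ :=
            mul_lt_mul_of_pos_right hn hpos
        _ = 1 := inv_mul_cancel₀ hx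
  refine ⟨n, ⟨(ϖ : Kbar p) ^ n * (x : Kbar p), ⟨E.mul_mem (pow_mem ϖ.2.1 n) x.2, ?_⟩⟩, ?_⟩
  · rw [norm_mul, norm_pow]; exact hn
  · apply Subtype.ext
    show ((oToE E ϖ ^ n * x : ↥E) : Kbar p) = (ϖ : Kbar p) ^ n * (x : Kbar p)
    rw [MulMemClass.coe_mul, SubmonoidClass.coe_pow, coe_oToE]

/-- **`E ⊗[W] B = (O_E ⊗[W] B)[1/ϖ]`** (the `hT` of `AD21/Adapter`), for any ring hom
`lam : O_E ⊗[W] B →+* E ⊗[W] B` which is `o ⊗ b ↦ o ⊗ b` on pure tensors. -/
theorem hT_concrete {K : IntermediateField ℚ Qbar} {E : IntermediateField ℚ_[p] (Kbar p)}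
    (h : IsLevel p K E) {B : Type*} [CommRing B] [Algebra (Wb p K) B]
    (lam : letI := algWO h
      letI := algWE h
      ↥(intSubring p E) ⊗[Wb p K] B →+* ↥E ⊗[Wb p K] B)
    (hlam : letI := algWO h
      letI := algWE h
      ∀ (o : ↥(intSubring p E)) (b : B), lam (o ⊗ₜ[Wb p K] b) = oToE E o ⊗ₜ[Wb p K] b)
    (ϖ : ↥(intSubring p E)) (hϖ : ‖(ϖ : Kbar p)‖ < 1) :
    letI := algWO h
    letI := algWE h
    ∀ t : ↥E ⊗[Wb p K] B, ∃ (n : ℕ) (r : ↥(intSubring p E) ⊗[Wb p K] B),
      lam (ϖ ⊗ₜ[Wb p K] (1 : B)) ^ n * t = lam r := by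
  letI := algWO h
  letI := algWE h
  letI := algOE E
  haveI := tower_W_O_E h
  letI : Algebra (↥(intSubring p E) ⊗[Wb p K] B) (↥E ⊗[Wb p K] B) := lam.toAlgebra
  exact hT_tensor (W := Wb p K) (Oh := ↥(intSubring p E)) (E := ↥E) (B := B) hlam ϖ
    (exists_pow_mul_eq E ϖ hϖ)

end Loc

end Fermat.Agent.T1B.AD69.Concrete
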