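/-
T1B / cell AD (helper69): `AD74.GlueHub.exists_glue_hub` WITH THE CANONICAL AMBIENT FIELDS
`F := L((q))`, `F̂ := E((q))`.

All the structures on `F`, `F̂` required by `exists_glue_hub` (six `Algebra`, four `IsScalarTower`,
`ι`, three `hι`, seven injectivities) are discharged from: expansions `e_j : B_j →+* K((q))` of the
three chart rings (`K = Frac W`), `w ↦ C w` on `W`, compatible with `B_j → B01`, injective; and the
coefficient square `O → L → E`, `O → Ô → E` of `W`-algebras (`K ⊂ L ⊂ E` fields, `O ↪ L`, `Ô ↪ E`).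
What remains are exactly the DVR-level hypotheses `hπL hL hE happrox hsat`.
-/
import Mathlib
import Fermat.Prelude.Def_ModularCurve_LaurentCoeff
import Fermat.Agent.T1B.AD69.LaurentInst
import Fermat.Agent.T1B.AD74.GlueHub

set_option autoImplicit false
set_option linter.unusedSectionVars false
set_option linter.style.haveILetI false

universe u

noncomputable section

namespace Fermat.Agent.T1B.AD69

open HahnSeries ModularCurve TensorProduct
open Fermat.Agent.Jac Fermat.Agent.Jac.BaseChange75 Fermat.Agent.T1.RedIface75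
open Fermat.Agent.T1B.InjLaurent69 Fermat.Agent.T1B.AD21 Fermat.Agent.T1B.AD74.GlueHub
open scoped Fermat.Agent.Jac.BaseChange75

variable {W B0 B1 B01 : Type u} [CommRing W] [CommRing B0] [CommRing B1] [CommRing B01]
  [Algebra W B0] [Algebra W B1] [Algebra W B01] [Algebra B0 B01] [Algebra B1 B01]
  [IsScalarTower W B0 B01] [IsScalarTower W B1 B01]
  (c0 : TwoChart W B0 B1 B01)
  {K : Type*} [Field K] [Algebra W K] [IsFractionRing W K]
  (O L Oh E : Type u) [CommRing O] [Field L] [CommRing Oh] [Field E]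
  [Algebra K L] [Algebra K E]
  [Algebra W O] [Algebra W L] [Algebra W Oh] [Algebra W E]
  [IsScalarTower W K L] [IsScalarTower W K E]
  [Algebra O L] [IsScalarTower W O L] [Algebra O Oh] [IsScalarTower W O Oh]
  [Algebra L E] [IsScalarTower W L E] [Algebra Oh E] [IsScalarTower W Oh E]
  [Algebra O E] [IsScalarTower W O E] [IsScalarTower O L E] [IsScalarTower O Oh E]
  [IsScalarTower K L E]
  [Module.Flat W B0] [Module.Flat W B1] [Module.Flat W B01]
  (e0 : B0 →+* LaurentSeries K)
  (he0 : ∀ w : W, e0 (algebraMap W B0 w) = HahnSeries.C (algebraMap W K w))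
  (e1 : B1 →+* LaurentSeries K)
  (he1 : ∀ w : W, e1 (algebraMap W B1 w) = HahnSeries.C (algebraMap W K w))
  (e01 : B01 →+* LaurentSeries K)
  (he01 : ∀ w : W, e01 (algebraMap W B01 w) = HahnSeries.C (algebraMap W K w))
  (h0 : ∀ b : B0, e01 (algebraMap B0 B01 b) = e0 b)
  (h1 : ∀ b : B1, e01 (algebraMap B1 B01 b) = e1 b)

/-- `intExp` is compatible with change of the coefficient ring. -/
theorem intExp_left {B : Type*} [CommRing B] [Algebra W B] (e : B →+* LaurentSeries K)
    (he : ∀ w : W, e (algebraMap W B w) = HahnSeries.C (algebraMap W K w))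
    {O₁ O₂ Ω : Type*} [CommRing O₁] [CommRing O₂] [Field Ω] [Algebra K Ω] [Algebra W Ω]
    [IsScalarTower W K Ω] [Algebra W O₁] [Algebra W O₂]
    [Algebra O₁ Ω] [Algebra O₂ Ω] [IsScalarTower W O₁ Ω] [IsScalarTower W O₂ Ω]
    [Algebra O₁ O₂] [IsScalarTower O₁ O₂ Ω]
    (f : O₁ ⊗[W] B →+* O₂ ⊗[W] B)
    (hf : ∀ (o : O₁) (b : B), f (o ⊗ₜ[W] b) = algebraMap O₁ O₂ o ⊗ₜ[W] b) (x : O₁ ⊗[W] B) :
    intExp (L := Ω) (O := O₂) e he (f x) = intExp (L := Ω) (O := O₁) e he x := by
  induction x using TensorProduct.induction_on with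
  | zero => rw [map_zero, map_zero, map_zero]
  | tmul o b => rw [hf, intExp_tmul, intExp_tmul, ← IsScalarTower.algebraMap_apply O₁ O₂ Ω]
  | add x y hx hy => rw [map_add, map_add, map_add, hx, hy]

include e0 he0 e1 he1 e01 he01 h0 h1 in
/-- **GLUE with `F := L((q))`, `F̂ := E((q))`**: `Pic X_O ↠ Pic X_L ×_{Pic X_E} Pic X_Ô`. -/
theorem glue_laurent
    (hinj0 : Function.Injective e0) (hinj1 : Function.Injective e1)
    (hinj01 : Function.Injective e01)
    (hO : Function.Injective (algebraMap O L)) (hOh : Function.Injective (algebraMap Oh E))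
    (π : O) (hπL : IsUnit (algebraMap O L π))
    (hL : ∀ l : L, ∃ (n : ℕ) (r : O), algebraMap O L π ^ n * l = algebraMap O L r)
    (hE : ∀ x : E, ∃ (n : ℕ) (r : Oh),
      algebraMap Oh E (algebraMap O Oh π) ^ n * x = algebraMap Oh E r)
    (happrox : ∀ (n : ℕ) (x : Oh), ∃ (r : O) (s : Oh),
      x = algebraMap O Oh r + algebraMap O Oh π ^ n * s)
    (hsat : ∀ (n : ℕ) (r : O), algebraMap O Oh r ∈ Ideal.span {algebraMap O Oh π ^ n} →
      r ∈ Ideal.span {π ^ n})
    (yh : PicX c0 Oh) (z : PicX c0 L)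
    (h : PicX.map c0 Oh E yh = PicX.map c0 L E z) :
    ∃ y : PicX c0 O, PicX.map c0 O L y = z ∧ PicX.map c0 O Oh y = yh := by
  -- the canonical structures on `L((q))`
  letI aL0 : Algebra (L ⊗[W] B0) (LaurentSeries L) := algLaurent (Ω := L) (Oh := L) e0 he0
  letI aL1 : Algebra (L ⊗[W] B1) (LaurentSeries L) := algLaurent (Ω := L) (Oh := L) e1 he1
  letI aL01 : Algebra (L ⊗[W] B01) (LaurentSeries L) := algLaurent (Ω := L) (Oh := L) e01 he01
  haveI tL0 : IsScalarTower (L ⊗[W] B0) (L ⊗[W] B01) (LaurentSeries L) :=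
    tower_right (Ω := L) (O := L) e0 he0 e01 he01 h0 (fun o b => algebraMap_right_tmul W L B0 B01 o b)
  haveI tL1 : IsScalarTower (L ⊗[W] B1) (L ⊗[W] B01) (LaurentSeries L) :=
    tower_right (Ω := L) (O := L) e1 he1 e01 he01 h1 (fun o b => algebraMap_right_tmul W L B1 B01 o b)
  -- the canonical structures on `E((q))`
  letI aE0 : Algebra (E ⊗[W] B0) (LaurentSeries E) := algLaurent (Ω := E) (Oh := E) e0 he0
  letI aE1 : Algebra (E ⊗[W] B1) (LaurentSeries E) := algLaurent (Ω := E) (Oh := E) e1 he1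
  letI aE01 : Algebra (E ⊗[W] B01) (LaurentSeries E) := algLaurent (Ω := E) (Oh := E) e01 he01
  haveI tE0 : IsScalarTower (E ⊗[W] B0) (E ⊗[W] B01) (LaurentSeries E) :=
    tower_right (Ω := E) (O := E) e0 he0 e01 he01 h0 (fun o b => algebraMap_right_tmul W E B0 B01 o b)
  haveI tE1 : IsScalarTower (E ⊗[W] B1) (E ⊗[W] B01) (LaurentSeries E) :=
    tower_right (Ω := E) (O := E) e1 he1 e01 he01 h1 (fun o b => algebraMap_right_tmul W E B1 B01 o b)
  -- `ι = coeffMap (L → E)` is compatible with `L ⊗ B → E ⊗ B`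
  have hι : ∀ {B : Type u} [CommRing B] [Algebra W B] (e : B →+* LaurentSeries K)
      (he : ∀ w : W, e (algebraMap W B w) = HahnSeries.C (algebraMap W K w)) (s : L ⊗[W] B),
      coeffMap (algebraMap L E) (intExp (L := L) (O := L) e he s) =
        intExp (L := E) (O := E) e he (algebraMap (L ⊗[W] B) (E ⊗[W] B) s) := by
    intro B _ _ e he s
    rw [← tmap_eq_algebraMap L E B s]
    exact (intExp_tmap (L := L) (Ω := E) (O := L) (Oh := E) e he (IsScalarTower.toAlgHom W L E)
      (fun o => rfl) s).symm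
  -- injectivity of the composites
  have hcomp : ∀ {B : Type u} [CommRing B] [Algebra W B] [Module.Flat W B]
      (e : B →+* LaurentSeries K)
      (he : ∀ w : W, e (algebraMap W B w) = HahnSeries.C (algebraMap W K w))
      (hinj : Function.Injective e)
      {O₁ Ω : Type u} [CommRing O₁] [Field Ω] [Algebra K Ω] [Algebra W Ω] [IsScalarTower W K Ω]
      [Algebra W O₁] [Algebra O₁ Ω] [IsScalarTower W O₁ Ω]
      (hO₁ : Function.Injective (algebraMap O₁ Ω)),
      Function.Injective fun x : O₁ ⊗[W] B =>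
        intExp (L := Ω) (O := Ω) e he (algebraMap (O₁ ⊗[W] B) (Ω ⊗[W] B) x) := by
    intro B _ _ _ e he hinj O₁ Ω _ _ _ _ _ _ _ _ hO₁ x y hxy
    have hx := intExp_left (Ω := Ω) (O₁ := O₁) (O₂ := Ω) e he
      (algebraMap (O₁ ⊗[W] B) (Ω ⊗[W] B)) (fun o b => algebraMap_left_tmul W O₁ Ω B o b)
    simp only [hx] at hxy
    exact intExp_injective (L := Ω) (O := O₁) e he hO₁ hinj hxy
  exact exists_glue_hub c0 O L Oh E (F := LaurentSeries L) (Fh := LaurentSeries E)
    (coeffMap (algebraMap L E)) (hι e0 he0) (hι e1 he1) (hι e01 he01)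
    π hπL hL hE happrox hsat
    (intExp_injective (L := L) (O := L) e0 he0 Function.injective_id hinj0)
    (intExp_injective (L := L) (O := L) e1 he1 Function.injective_id hinj1)
    (hcomp e0 he0 hinj0 hO) (hcomp e1 he1 hinj1 hO)
    (hcomp e0 he0 hinj0 hOh) (hcomp e1 he1 hinj1 hOh) (hcomp e01 he01 hinj01 hOh)
    yh z h

end Fermat.Agent.T1B.AD69
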