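/-
T1B / cell AD (helper69): **THE CONCRETE GLUE** = `AD74.GlueHub.exists_glue_hub` at

  `W = Wb p K`,  `O = Wb p L = A ∩ L`,  `L`,  `Ô = O_E = intSubring p E`,  `E`   (`K ≤ L`, `ι L ⊆ E`),

ambient fields `L((q))`, `E((q))`, for ANY two-chart ring `c0 : TwoChart (Wb p K) B0 B1 B01` whose
chart rings carry compatible injective expansions `e_j : B_j →+* K((q))` and are flat over `W`
(in the application `B_j ⊂ FK N K`, `e_j = val`).  Inputs left: `π ≠ 0` in the maximal ideal of `O`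
and the two density facts `happrox`, `hsat` for `ψ = toO : O → Ô` (helper78, AD78/Density).

`glue_concrete` : `Pic X_O ↠ Pic X_L ×_{Pic X_E} Pic X_Ô`.
-/
import Mathlib
import Fermat.Agent.T1B.AD69.GlueLaurent
import Fermat.Agent.T1B.AD69.Concrete

set_option autoImplicit false
set_option linter.unusedSectionVars false
set_option linter.style.haveILetI false

noncomputable section

namespace Fermat.Agent.T1B.AD69.Concrete

open HahnSeries ModularCurve TensorProduct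
open Fermat.Agent.TW.B5.Iface Fermat.Agent.RED.Interface4 Fermat.Agent.T1.HubInst98
open Fermat.Agent.T1B.Local66.LocalBase
open Fermat.Agent.Jac Fermat.Agent.Jac.BaseChange75 Fermat.Agent.T1.RedIface75
open Fermat.Agent.T1B.InjLaurent69 Fermat.Agent.T1B.AD21
open scoped Fermat.Agent.Jac.BaseChange75

variable {p : ℕ} [Fact p.Prime] {K L : IntermediateField ℚ Qbar}
  {E : IntermediateField ℚ_[p] (Kbar p)}

/-- **`L = O_L[1/π]`** for `π ∈ A ∩ L` with `‖ι π‖ < 1`. -/
theorem exists_pow_mul_eq_L (π : Wb p L) (hπ : ‖iotaW p L π‖ < 1) (l : ↥L) :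
    ∃ (n : ℕ) (r : Wb p L), algebraMap (Wb p L) ↥L π ^ n * l = algebraMap (Wb p L) ↥L r := by
  obtain ⟨n, hn⟩ : ∃ n : ℕ, ‖iotaW p L π‖ ^ n * ‖iotaK p L l‖ ≤ 1 := by
    by_cases hx : ‖iotaK p L l‖ = 0
    · exact ⟨0, by rw [hx, mul_zero]; exact zero_le_one⟩
    · have hpos : 0 < ‖iotaK p L l‖ := lt_of_le_of_ne (norm_nonneg _) (Ne.symm hx)
      obtain ⟨n, hn⟩ := exists_pow_lt_of_lt_one (inv_pos.2 hpos) hπ
      refine ⟨n, le_of_lt ?_⟩
      calc ‖iotaW p L π‖ ^ n * ‖iotaK p L l‖ < ‖iotaK p L l‖⁻¹ * ‖iotaK p L l‖ :=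
            mul_lt_mul_of_pos_right hn hpos
        _ = 1 := inv_mul_cancel₀ hx
  have hmem : ((π : ↥L) ^ n * l : ↥L) ∈ AK (padicPlace p) L := by
    rw [← norm_iota_jL_le_one_iff]
    have : padicEmbedding p (jL L ((π : ↥L) ^ n * l)) = iotaW p L π ^ n * iotaK p L l := by
      rw [map_mul, map_pow, map_mul, map_pow]
      rfl
    rw [this, norm_mul, norm_pow]
    exact hn
  exact ⟨n, ⟨_, hmem⟩, rfl⟩

variable {B0 B1 B01 : Type} [CommRing B0] [CommRing B1] [CommRing B01]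
  [Algebra (Wb p K) B0] [Algebra (Wb p K) B1] [Algebra (Wb p K) B01]
  [Algebra B0 B01] [Algebra B1 B01]
  [IsScalarTower (Wb p K) B0 B01] [IsScalarTower (Wb p K) B1 B01]
  (c0 : TwoChart (Wb p K) B0 B1 B01)
  [Module.Flat (Wb p K) B0] [Module.Flat (Wb p K) B1] [Module.Flat (Wb p K) B01]
  (e0 : B0 →+* LaurentSeries ↥K)
  (he0 : ∀ w : Wb p K, e0 (algebraMap (Wb p K) B0 w) = HahnSeries.C (algebraMap (Wb p K) ↥K w))
  (e1 : B1 →+* LaurentSeries ↥K)
  (he1 : ∀ w : Wb p K, e1 (algebraMap (Wb p K) B1 w) = HahnSeries.C (algebraMap (Wb p K) ↥K w))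
  (e01 : B01 →+* LaurentSeries ↥K)
  (he01 : ∀ w : Wb p K, e01 (algebraMap (Wb p K) B01 w) = HahnSeries.C (algebraMap (Wb p K) ↥K w))
  (h0 : ∀ b : B0, e01 (algebraMap B0 B01 b) = e0 b)
  (h1 : ∀ b : B1, e01 (algebraMap B1 B01 b) = e1 b)

include e0 he0 e1 he1 e01 he01 h0 h1 in
/-- **The concrete GLUE**: for `K ≤ L`, a level `E ⊇ ι L`, `0 ≠ π ∈ A ∩ L` with `‖ι π‖ < 1`:
`Pic X_{O_L} ↠ Pic X_L ×_{Pic X_E} Pic X_{O_E}`. -/
theorem glue_concrete (hKL : K ≤ L) (h : IsLevel p L E)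
    (hinj0 : Function.Injective e0) (hinj1 : Function.Injective e1)
    (hinj01 : Function.Injective e01)
    (π : Wb p L) (hπ0 : π ≠ 0) (hπ : ‖iotaW p L π‖ < 1)
    (happrox : ∀ (n : ℕ) (x : ↥(intSubring p E)), ∃ (r : Wb p L) (s : ↥(intSubring p E)),
      x = toO h r + toO h π ^ n * s)
    (hsat : ∀ (n : ℕ) (r : Wb p L), toO h r ∈ Ideal.span {toO h π ^ n} → r ∈ Ideal.span {π ^ n}) :
    letI := algAK (padicPlace p) hKL
    letI := algAKL (padicPlace p) hKL
    letI := algWO (isLevel_of_le hKL h)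
    letI := algWE (isLevel_of_le hKL h)
    letI := algWO h
    letI := algWE h
    letI := algOE E
    letI := algKE h
    haveI := isScalarTower_AK (padicPlace p) hKL
    haveI : IsScalarTower (Wb p K) (Wb p L) ↥(intSubring p E) :=
      IsScalarTower.of_algebraMap_eq fun w => (toO_inclAK hKL h w).symm
    haveI : IsScalarTower (Wb p K) ↥L ↥E := IsScalarTower.of_algebraMap_eq fun _ => Subtype.ext rfl
    haveI := tower_W_O_E (isLevel_of_le hKL h)
    haveI : IsScalarTower (Wb p K) (Wb p L) ↥E :=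
      IsScalarTower.of_algebraMap_eq fun _ => Subtype.ext rfl
    haveI : IsScalarTower (Wb p L) ↥L ↥E := IsScalarTower.of_algebraMap_eq' rfl
    haveI := tower_W_O_E h
    ∀ (yh : PicX c0 ↥(intSubring p E)) (z : PicX c0 ↥L),
      PicX.map c0 ↥(intSubring p E) ↥E yh = PicX.map c0 ↥L ↥E z →
      ∃ y : PicX c0 (Wb p L), PicX.map c0 (Wb p L) ↥L y = z ∧
        PicX.map c0 (Wb p L) ↥(intSubring p E) y = yh := by
  letI := algAK (padicPlace p) hKL
  letI := algKL hKL
  letI := algAKL (padicPlace p) hKL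
  letI := algWO (isLevel_of_le hKL h)
  letI := algWE (isLevel_of_le hKL h)
  letI := algWO h
  letI := algWE h
  letI := algOE E
  letI := algKE (isLevel_of_le hKL h)
  letI := algKE h
  haveI := isScalarTower_AK (padicPlace p) hKL
  haveI := isScalarTower_AK_K (padicPlace p) hKL
  haveI : IsScalarTower (Wb p K) (Wb p L) ↥(intSubring p E) :=
    IsScalarTower.of_algebraMap_eq fun w => (toO_inclAK hKL h w).symm
  haveI : IsScalarTower (Wb p K) ↥L ↥E := IsScalarTower.of_algebraMap_eq fun _ => Subtype.ext rfl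
  haveI := tower_W_O_E (isLevel_of_le hKL h)
  haveI : IsScalarTower (Wb p K) (Wb p L) ↥E :=
    IsScalarTower.of_algebraMap_eq fun _ => Subtype.ext rfl
  haveI : IsScalarTower (Wb p L) ↥L ↥E := IsScalarTower.of_algebraMap_eq' rfl
  haveI := tower_W_O_E h
  haveI : IsScalarTower (Wb p K) ↥K ↥E := IsScalarTower.of_algebraMap_eq' rfl
  haveI : IsScalarTower ↥K ↥L ↥E := IsScalarTower.of_algebraMap_eq fun _ => Subtype.ext rfl
  intro yh z hyz
  have hπL : IsUnit (algebraMap (Wb p L) ↥L π) :=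
    IsUnit.mk0 _ fun h0 => hπ0 (IsFractionRing.injective (Wb p L) ↥L (by rw [h0, map_zero]))
  exact glue_laurent (W := Wb p K) (K := ↥K) c0 (Wb p L) ↥L ↥(intSubring p E) ↥E
    e0 he0 e1 he1 e01 he01 h0 h1 hinj0 hinj1 hinj01
    (IsFractionRing.injective (Wb p L) ↥L) oToE_injective π hπL
    (exists_pow_mul_eq_L π hπ) (exists_pow_mul_eq E (toO h π) hπ) happrox hsat yh z hyz

end Fermat.Agent.T1B.AD69.Concrete
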