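/-
T1B / cell AD (helper69): **THE CONCRETE GLUE, UNCONDITIONAL AT THE DVR LEVEL**:
`glue_concrete` (AD69/GlueConcrete) at `E := E_L = localField p L` with helper78's density facts
`AD78.Density.approx`, `AD78.Density.sat` plugged in.

For `K ≤ L` number fields, `W = Wb p K`, `O_L = Wb p L`, `Ô_L = intSubring p (localField p L)`,
`E_L = localField p L`, ANY two-chart ring `c0 : TwoChart W B0 B1 B01` with flat chart rings and
compatible injective expansions `e_j : B_j →+* K((q))`, and `0 ≠ π ∈ O_L`, `‖ι π‖ < 1` (e.g. `π = p`):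

  `∀ ŷ z, PicX.map c0 Ô_L E_L ŷ = PicX.map c0 L E_L z →
      ∃ y : PicX c0 O_L, PicX.map c0 O_L L y = z ∧ PicX.map c0 O_L Ô_L y = ŷ`.
-/
import Mathlib
import Fermat.Agent.T1B.AD69.GlueConcrete
import Fermat.Agent.T1B.AD78.Density

set_option autoImplicit false
set_option linter.unusedSectionVars false
set_option linter.style.haveILetI false

noncomputable section

namespace Fermat.Agent.T1B.AD69.Concrete

open HahnSeries ModularCurve TensorProduct
open Fermat.Agent.TW.B5.Iface Fermat.Agent.RED.Interface4 Fermat.Agent.T1.HubInst98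
open Fermat.Agent.T1B.Local66.LocalBase
open Fermat.Agent.Jac Fermat.Agent.Jac.BaseChange75 Fermat.Agent.T1.RedIface75
open Fermat.Agent.T1B.InjLaurent69 Fermat.Agent.T1B.AD21
open scoped Fermat.Agent.Jac.BaseChange75

variable {p : ℕ} [Fact p.Prime] {K L : IntermediateField ℚ Qbar}

/-- `toO` at the level `E_L` is helper78's `ψ`. -/
theorem toO_eq_psi (r : Wb p L) :
    toO (isLevel_EL p L) r = Fermat.Agent.T1B.AD78.Density.psi p L r :=
  Subtype.ext rfl

/-- density at the level `E_L` (helper78). -/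
theorem happrox_EL {π : Wb p L} (hπ0 : π ≠ 0) (n : ℕ) (x : ↥(intSubring p (EL p L))) :
    ∃ (r : Wb p L) (s : ↥(intSubring p (EL p L))),
      x = toO (isLevel_EL p L) r + toO (isLevel_EL p L) π ^ n * s := by
  obtain ⟨r, s, hrs⟩ := Fermat.Agent.T1B.AD78.Density.approx p L hπ0 n x
  exact ⟨r, s, by rw [toO_eq_psi, toO_eq_psi]; exact hrs⟩

/-- saturation at the level `E_L` (helper78). -/
theorem hsat_EL {π : Wb p L} (hπ0 : π ≠ 0) (n : ℕ) (r : Wb p L)
    (h : toO (isLevel_EL p L) r ∈ Ideal.span {toO (isLevel_EL p L) π ^ n}) :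
    r ∈ Ideal.span {π ^ n} := by
  rw [toO_eq_psi, toO_eq_psi] at h
  exact Fermat.Agent.T1B.AD78.Density.sat p L hπ0 n r h

variable {B0 B1 B01 : Type} [CommRing B0] [CommRing B1] [CommRing B01]
  [Algebra (Wb p K) B0] [Algebra (Wb p K) B1] [Algebra (Wb p K) B01]
  [Algebra B0 B01] [Algebra B1 B01]
  [IsScalarTower (Wb p K) B0 B01] [IsScalarTower (Wb p K) B1 B01]
  (c0 : TwoChart (Wb p K) B0 B1 B01)
  [Module.Flat (Wb p K) B0] [Module.Flat (Wb p K) B1] [Module.Flat (Wb p K) B01]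
  (e0 : B0 →+* LaurentSeries ↥K)
  (he0 : ∀ w : Wb p K, e0 (algebraMap (Wb p K) B0 w) = HahnSeries.C (algebraMap (Wb p K) ↥K w))
  (e1 : B1 →+* LaurentSeries ↥K)
  (he1 : ∀ w : Wb p K, e1 (algebraMap (Wb p K) B1 w) = HahnSeries.C (algebraMap (Wb p K) ↥K w))
  (e01 : B01 →+* LaurentSeries ↥K)
  (he01 : ∀ w : Wb p K, e01 (algebraMap (Wb p K) B01 w) = HahnSeries.C (algebraMap (Wb p K) ↥K w))
  (h0 : ∀ b : B0, e01 (algebraMap B0 B01 b) = e0 b)
  (h1 : ∀ b : B1, e01 (algebraMap B1 B01 b) = e1 b)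

include e0 he0 e1 he1 e01 he01 h0 h1 in
/-- **The concrete GLUE at `E_L = ℚ_p(ι L)`**, density plugged in. -/
theorem glue_EL (hKL : K ≤ L)
    (hinj0 : Function.Injective e0) (hinj1 : Function.Injective e1)
    (hinj01 : Function.Injective e01)
    (π : Wb p L) (hπ0 : π ≠ 0) (hπ : ‖iotaW p L π‖ < 1) :
    letI := algAK (padicPlace p) hKL
    letI := algAKL (padicPlace p) hKL
    letI := algWO (isLevel_of_le hKL (isLevel_EL p L))
    letI := algWE (isLevel_of_le hKL (isLevel_EL p L))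
    letI := algWO (isLevel_EL p L)
    letI := algWE (isLevel_EL p L)
    letI := algOE (EL p L)
    letI := algKE (isLevel_EL p L)
    haveI := isScalarTower_AK (padicPlace p) hKL
    haveI : IsScalarTower (Wb p K) (Wb p L) ↥(intSubring p (EL p L)) :=
      IsScalarTower.of_algebraMap_eq fun w => (toO_inclAK hKL (isLevel_EL p L) w).symm
    haveI : IsScalarTower (Wb p K) ↥L ↥(EL p L) :=
      IsScalarTower.of_algebraMap_eq fun _ => Subtype.ext rfl
    haveI := tower_W_O_E (isLevel_of_le hKL (isLevel_EL p L))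
    haveI : IsScalarTower (Wb p K) (Wb p L) ↥(EL p L) :=
      IsScalarTower.of_algebraMap_eq fun _ => Subtype.ext rfl
    haveI : IsScalarTower (Wb p L) ↥L ↥(EL p L) := IsScalarTower.of_algebraMap_eq' rfl
    haveI := tower_W_O_E (isLevel_EL p L)
    ∀ (yh : PicX c0 ↥(intSubring p (EL p L))) (z : PicX c0 ↥L),
      PicX.map c0 ↥(intSubring p (EL p L)) ↥(EL p L) yh = PicX.map c0 ↥L ↥(EL p L) z →
      ∃ y : PicX c0 (Wb p L), PicX.map c0 (Wb p L) ↥L y = z ∧
        PicX.map c0 (Wb p L) ↥(intSubring p (EL p L)) y = yh :=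
  glue_concrete c0 e0 he0 e1 he1 e01 he01 h0 h1 hKL (isLevel_EL p L) hinj0 hinj1 hinj01 π hπ0 hπ
    (happrox_EL hπ0) (hsat_EL hπ0)

end Fermat.Agent.T1B.AD69.Concrete
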