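/-
T1B / cell AD (helper69): **THE CONCRETE GLUE FOR SUBALGEBRA CHARTS**.

`glue_EL` (AD69/GlueFinal) for chart rings `B0 B1 : Subalgebra (Wb p K) D`, `B01 = ↥(B0 ⊔ B1)`
(instances `Coh60.algebra0/1`), `D` ANY field over `K` with an expansion `eD : D →+* K((q))`,
`eD (c) = C c` (e.g. `D = ↥(FK N K)`, `eD = val`; `D` is kept abstract because instance search at
`↥(FK N K)` is very slow): expansions `e_j := eD ∘ val`, their compatibilities and injectivity, and
flatness over the valuation ring `Wb p K` are all automatic.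
Remaining inputs: `K ≤ L` and `0 ≠ π ∈ A ∩ L`, `‖ι π‖ < 1`.
-/
import Mathlib
import Fermat.Agent.T1B.AD69.GlueFinal
import Fermat.Agent.T1.Coh60.ModelLine

set_option autoImplicit false
set_option linter.unusedSectionVars false
set_option linter.style.haveILetI false

noncomputable section

namespace Fermat.Agent.T1B.AD69.Concrete

open HahnSeries ModularCurve TensorProduct
open Fermat.Agent.TW.B5.Iface Fermat.Agent.RED.Interface4 Fermat.Agent.T1.HubInst98
open Fermat.Agent.T1B.Local66.LocalBase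
open Fermat.Agent.Jac Fermat.Agent.Jac.BaseChange75 Fermat.Agent.T1.RedIface75
open Fermat.Agent.T1B.InjLaurent69 Fermat.Agent.T1B.AD21
open Fermat.Agent.T1.Coh60 Fermat.Agent.T1.ModelCoh30
open scoped Fermat.Agent.Jac.BaseChange75

attribute [local instance] algebra0 algebra1 isScalarTower0 isScalarTower1

variable {p : ℕ} [Fact p.Prime] {K L : IntermediateField ℚ Qbar}
  {D : Type} [Field D] [Algebra ↥K D] [Algebra (Wb p K) D] [IsScalarTower (Wb p K) ↥K D]
  (eD : D →+* LaurentSeries ↥K) (heD : ∀ c : ↥K, eD (algebraMap ↥K D c) = HahnSeries.C c)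

/-- The expansion of a subalgebra chart: `B ⊂ D → K((q))`. -/
def eSub (B : Subalgebra (Wb p K) D) : ↥B →+* LaurentSeries ↥K :=
  eD.comp (B.val : ↥B →+* D)

theorem eSub_apply (B : Subalgebra (Wb p K) D) (b : ↥B) : eSub eD B b = eD (b : D) := rfl

theorem eSub_injective (B : Subalgebra (Wb p K) D) : Function.Injective (eSub eD B) :=
  eD.injective.comp Subtype.val_injective

include heD in
theorem eSub_const (B : Subalgebra (Wb p K) D) (w : Wb p K) :
    eSub eD B (algebraMap (Wb p K) ↥B w) = HahnSeries.C (algebraMap (Wb p K) ↥K w) := by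
  rw [eSub_apply, Subalgebra.coe_algebraMap, IsScalarTower.algebraMap_apply (Wb p K) ↥K D, heD]

/-- subalgebra charts are flat over the valuation ring `Wb p K`. -/
theorem flat_sub (B : Subalgebra (Wb p K) D) : Module.Flat (Wb p K) ↥B :=
  flat_of_injective (W := Wb p K) (K := ↥K) (B := ↥B) (D := D)
    (IsFractionRing.injective (Wb p K) ↥K) (B.val : ↥B →+* D)
    (fun w => by
      show ((algebraMap (Wb p K) ↥B w : ↥B) : D) = _
      rw [Subalgebra.coe_algebraMap, IsScalarTower.algebraMap_apply (Wb p K) ↥K D])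
    Subtype.val_injective

variable (B0 B1 : Subalgebra (Wb p K) D)

include heD in
/-- **The concrete GLUE for subalgebra charts** `B0, B1 ⊂ D`, `B01 = B0 ⊔ B1`. -/
theorem glue_EL_sub (c0 : TwoChart (Wb p K) ↥B0 ↥B1 ↥(B0 ⊔ B1)) (hKL : K ≤ L)
    (π : Wb p L) (hπ0 : π ≠ 0) (hπ : ‖iotaW p L π‖ < 1) :
    letI := algAK (padicPlace p) hKL
    letI := algAKL (padicPlace p) hKL
    letI := algWO (isLevel_of_le hKL (isLevel_EL p L))
    letI := algWE (isLevel_of_le hKL (isLevel_EL p L))
    letI := algWO (isLevel_EL p L)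
    letI := algWE (isLevel_EL p L)
    letI := algOE (EL p L)
    letI := algKE (isLevel_EL p L)
    haveI := isScalarTower_AK (padicPlace p) hKL
    haveI : IsScalarTower (Wb p K) (Wb p L) ↥(intSubring p (EL p L)) :=
      IsScalarTower.of_algebraMap_eq fun w => (toO_inclAK hKL (isLevel_EL p L) w).symm
    haveI : IsScalarTower (Wb p K) ↥L ↥(EL p L) :=
      IsScalarTower.of_algebraMap_eq fun _ => Subtype.ext rfl
    haveI := tower_W_O_E (isLevel_of_le hKL (isLevel_EL p L))
    haveI : IsScalarTower (Wb p K) (Wb p L) ↥(EL p L) :=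
      IsScalarTower.of_algebraMap_eq fun _ => Subtype.ext rfl
    haveI : IsScalarTower (Wb p L) ↥L ↥(EL p L) := IsScalarTower.of_algebraMap_eq' rfl
    haveI := tower_W_O_E (isLevel_EL p L)
    ∀ (yh : PicX c0 ↥(intSubring p (EL p L))) (z : PicX c0 ↥L),
      PicX.map c0 ↥(intSubring p (EL p L)) ↥(EL p L) yh = PicX.map c0 ↥L ↥(EL p L) z →
      ∃ y : PicX c0 (Wb p L), PicX.map c0 (Wb p L) ↥L y = z ∧
        PicX.map c0 (Wb p L) ↥(intSubring p (EL p L)) y = yh := by
  haveI := flat_sub B0
  haveI := flat_sub B1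
  haveI := flat_sub (B0 ⊔ B1)
  exact glue_EL c0 (eSub eD B0) (eSub_const eD heD B0) (eSub eD B1) (eSub_const eD heD B1)
    (eSub eD (B0 ⊔ B1)) (eSub_const eD heD (B0 ⊔ B1)) (fun _ => rfl) (fun _ => rfl) hKL
    (eSub_injective eD B0) (eSub_injective eD B1) (eSub_injective eD (B0 ⊔ B1)) π hπ0 hπ

end Fermat.Agent.T1B.AD69.Concrete
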