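/-
T1B / cell AD (helper69): **`hinjE`** — the hypothesis `∀ E : NLevel p K, Injective (bcE c0 E)` of
`ADPe93.Completion.adMain / adExt / exists_extension`, from helper43's EXT-INJ-FIELD
(`Bridge43.picMap_injective_of_field`) at `L := E_L`, `L' := ℚ̄_p`.

Inputs: `H⁰(O_{X_{ℚ̄_p}}) = ℚ̄_p` (`Red68.H0Const (c0.baseChange (Kbar p))`, for the nodal hub
`NodalCoh30.concrete_h0Const … (Kbar p)`), and ONE injective expansion of the flat chart ring `B0`
(only used for `Nontrivial (ℚ̄_p ⊗[W] B0)`).
-/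
import Mathlib
import Fermat.Agent.T1B.Bridge43.ExtInjField
import Fermat.Agent.T1B.Local66.Union
import Fermat.Agent.T1B.InjLaurent69.Basic

set_option autoImplicit false
set_option linter.unusedSectionVars false
set_option linter.style.haveILetI false

noncomputable section

namespace Fermat.Agent.T1B.AD69.Concrete

open HahnSeries ModularCurve TensorProduct
open Fermat.Agent.TW.B5.Iface Fermat.Agent.RED.Interface4 Fermat.Agent.T1.HubInst98
open Fermat.Agent.T1B.Local66.LocalBase Fermat.Agent.T1B.Local66.Union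
open Fermat.Agent.Jac Fermat.Agent.Jac.BaseChange75 Fermat.Agent.T1.RedIface75
open Fermat.Agent.T1B.InjLaurent69
open scoped Fermat.Agent.Jac.BaseChange75

variable {p : ℕ} [Fact p.Prime] {K : IntermediateField ℚ Qbar}
  {B0 B1 B01 : Type} [CommRing B0] [CommRing B1] [CommRing B01]
  [Algebra (Wb p K) B0] [Algebra (Wb p K) B1] [Algebra (Wb p K) B01]
  [Algebra B0 B01] [Algebra B1 B01]
  [IsScalarTower (Wb p K) B0 B01] [IsScalarTower (Wb p K) B1 B01]
  (c0 : TwoChart (Wb p K) B0 B1 B01)

/-- `ℚ̄_p ⊗[W] B0` is a domain (hence nontrivial) for a flat chart ring with an injective expansion. -/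
theorem isDomain_Kbar_tensor [Module.Flat (Wb p K) B0] (e0 : B0 →+* LaurentSeries ↥K)
    (he0 : ∀ w : Wb p K, e0 (algebraMap (Wb p K) B0 w) = HahnSeries.C (algebraMap (Wb p K) ↥K w))
    (hinj0 : Function.Injective e0) :
    letI := algWKbar p K
    IsDomain (Kbar p ⊗[Wb p K] B0) := by
  letI := algWKbar p K
  letI : Algebra ↥K (Kbar p) := (iotaK p K).toAlgebra
  haveI : IsScalarTower (Wb p K) ↥K (Kbar p) := IsScalarTower.of_algebraMap_eq' rfl
  exact isDomain_int_tensor (L := Kbar p) (O := Kbar p) e0 he0 Function.injective_id hinj0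

/-- **`hinjE`**: `Pic X_{E_L} → Pic X_{ℚ̄_p}` is injective for every level. -/
theorem hinjE [Module.Flat (Wb p K) B0] (e0 : B0 →+* LaurentSeries ↥K)
    (he0 : ∀ w : Wb p K, e0 (algebraMap (Wb p K) B0 w) = HahnSeries.C (algebraMap (Wb p K) ↥K w))
    (hinj0 : Function.Injective e0)
    (hH0 : letI := algWKbar p K
      Fermat.Agent.T1.Red68.H0Const (c0.baseChange (Kbar p)))
    (E : NLevel p K) : Function.Injective (bcE c0 E) := by
  letI := algWE E.lev
  letI := algWKbar p K
  letI := algEKbar E.E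
  haveI := tower_W_E_Kbar E.lev
  haveI : IsDomain (Kbar p ⊗[Wb p K] B0) := isDomain_Kbar_tensor e0 he0 hinj0
  exact Fermat.Agent.T1B.Bridge43.picMap_injective_of_field c0 ↥E.E (Kbar p) hH0

end Fermat.Agent.T1B.AD69.Concrete
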